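import Mathlib

/-!
# S48 / FI (helper768): a Landau-type bound

A finite group whose centre and whose centralisers of non-central elements have order at most
`B` has order at most `B ^ (B + 1)`.  (Class equation + an Egyptian-fraction denominator bound.)
-/

set_option autoImplicit false

namespace Fermat.Agent.S48.FI

open scoped BigOperators

section Landau

variable {G : Type*} [Group G]

/-- Orbit–stabiliser for conjugacy classes, in `Nat.card` form. -/
theorem card_conjClass_mul_card_centralizer [Finite G] (g : G) :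
    Nat.card (ConjClasses.mk g).carrier * Nat.card (Subgroup.centralizer {g}) = Nat.card G := by
  classical
  haveI := Fintype.ofFinite G
  rw [Subgroup.nat_card_centralizer_nat_card_stabilizer, ← ConjAct.orbit_eq_carrier_conjClasses]
  have h := MulAction.card_orbit_mul_card_stabilizer_eq_card_group (ConjAct G) g
  rw [ConjAct.card] at h
  simpa [Nat.card_eq_fintype_card] using h

/-- A purely arithmetic core: if `N = z + ∑ s i` with `s i * n i = N`, `1 ≤ z`, then
`N ≤ z * ∏ n i`. -/
theorem le_mul_prod_of_sum_eq {ι : Type*} [DecidableEq ι] (I : Finset ι) (s n : ι → ℕ)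
    (N z : ℕ) (hz : 1 ≤ z) (hsn : ∀ i ∈ I, s i * n i = N) (hsum : z + ∑ i ∈ I, s i = N) :
    N ≤ z * ∏ i ∈ I, n i := by
  set D := ∏ i ∈ I, n i with hD
  set E := ∑ i ∈ I, ∏ j ∈ I.erase i, n j with hE
  have hN : 0 < N := by omega
  have hn : ∀ i ∈ I, 0 < n i := by
    intro i hi
    rcases Nat.eq_zero_or_pos (n i) with h0 | h0
    · have := hsn i hi
      rw [h0, mul_zero] at this
      omega
    · exact h0
  have hDpos : 0 < D := Finset.prod_pos hn
  have h1 : D * ∑ i ∈ I, s i = N * E := by
    rw [Finset.mul_sum, hE, Finset.mul_sum]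
    refine Finset.sum_congr rfl fun i hi => ?_
    rw [hD, ← Finset.mul_prod_erase I n hi, ← hsn i hi]
    ring
  have h2 : D * N = D * z + N * E := by
    rw [← h1, ← mul_add, hsum]
  have h3 : E < D := by
    by_contra hcon
    push Not at hcon
    have : N * D ≤ N * E := Nat.mul_le_mul_left N hcon
    have : 0 < D * z := Nat.mul_pos hDpos hz
    nlinarith
  have h4 : N * (E + 1) ≤ N * D := Nat.mul_le_mul_left N h3
  nlinarith

/-- **Landau-type bound.** -/
theorem card_le_pow_of_centralizer_le [Finite G] (B : ℕ)
    (hZ : Nat.card (Subgroup.center G) ≤ B)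
    (hC : ∀ g : G, g ∉ Subgroup.center G → Nat.card (Subgroup.centralizer {g}) ≤ B) :
    Nat.card G ≤ B ^ (B + 1) := by
  classical
  haveI := Fintype.ofFinite G
  obtain ⟨r, hr⟩ : ∃ r : ConjClasses G → G, ∀ x, ConjClasses.mk (r x) = x :=
    ⟨fun x => (ConjClasses.mk_surjective x).choose,
      fun x => (ConjClasses.mk_surjective x).choose_spec⟩
  set I : Finset (ConjClasses G) := (ConjClasses.noncenter G).toFinset with hI
  set s : ConjClasses G → ℕ := fun x => Nat.card x.carrier with hs
  set n : ConjClasses G → ℕ := fun x => Nat.card (Subgroup.centralizer {r x}) with hn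
  set N := Nat.card G with hN
  set z := Nat.card (Subgroup.center G) with hz
  have hzpos : 1 ≤ z := Nat.card_pos
  have hNpos : 0 < N := Nat.card_pos
  have hsn : ∀ x, s x * n x = N := by
    intro x
    have := card_conjClass_mul_card_centralizer (r x)
    rw [hr x] at this
    exact this
  have hsum : z + ∑ x ∈ I, s x = N := by
    have h := Group.card_center_add_sum_card_noncenter_eq_card G
    simp only [Set.toFinset_card, ← Nat.card_eq_fintype_card] at h
    exact h
  have hnc : ∀ x ∈ I, r x ∉ Subgroup.center G := by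
    intro x hx hcen
    rw [hI, Set.mem_toFinset, ConjClasses.mem_noncenter] at hx
    obtain ⟨a, ha, b, hb, hab⟩ := hx
    have key : ∀ c ∈ x.carrier, c = r x := by
      intro c hc
      rw [ConjClasses.mem_carrier_iff_mk_eq, ← hr x, ConjClasses.mk_eq_mk_iff_isConj,
        isConj_iff] at hc
      obtain ⟨d, hd⟩ := hc
      have hcomm := Subgroup.mem_center_iff.mp hcen d
      have : d * c * d⁻¹ = r x := hd
      have h5 : d * c = r x * d := by rw [← this]; group
      rw [← hcomm] at h5
      exact mul_left_cancel h5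
    exact hab ((key a ha).trans (key b hb).symm)
  have hnB : ∀ x ∈ I, n x ≤ B := fun x hx => hC (r x) (hnc x hx)
  have hBpos : 1 ≤ B := le_trans hzpos hZ
  -- number of non-central classes
  have hcardI : I.card ≤ B := by
    have h1 : ∑ x ∈ I, N ≤ ∑ x ∈ I, s x * B := by
      refine Finset.sum_le_sum fun x hx => ?_
      rw [← hsn x]
      exact Nat.mul_le_mul_left _ (hnB x hx)
    rw [Finset.sum_const, smul_eq_mul, ← Finset.sum_mul] at h1
    have h2 : ∑ x ∈ I, s x ≤ N := by omega
    have h3 : I.card * N ≤ B * N := by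
      calc I.card * N ≤ (∑ x ∈ I, s x) * B := h1
        _ ≤ N * B := Nat.mul_le_mul_right _ h2
        _ = B * N := mul_comm _ _
    exact Nat.le_of_mul_le_mul_right h3 hNpos
  have hprod : ∏ x ∈ I, n x ≤ B ^ B := by
    calc ∏ x ∈ I, n x ≤ B ^ I.card := Finset.prod_le_pow_card I n B hnB
      _ ≤ B ^ B := Nat.pow_le_pow_right hBpos hcardI
  have hmain := le_mul_prod_of_sum_eq I s n N z hzpos (fun x _ => hsn x) hsum
  calc N ≤ z * ∏ x ∈ I, n x := hmain
    _ ≤ B * B ^ B := Nat.mul_le_mul hZ hprod
    _ = B ^ (B + 1) := by ring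

end Landau

end Fermat.Agent.S48.FI
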