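import Fermat.Agent.S48.FI.Mat

/-!
# S48 / FI (helper768): square-zero matrices, elements of order `ℓ`, zero discriminant
-/

set_option autoImplicit false

namespace Fermat.Agent.S48.FI

open Matrix

section General

variable {F : Type*} [Field F]

theorem add_sqzero_pow (N : Matrix (Fin 2) (Fin 2) F) (hN : N * N = 0) (s : F) (k : ℕ) :
    (s • (1 : Matrix (Fin 2) (Fin 2) F) + N) ^ k =
      s ^ k • (1 : Matrix (Fin 2) (Fin 2) F) + ((k : F) * s ^ (k - 1)) • N := by
  induction k with
  | zero => simp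
  | succ k ih =>
      rw [pow_succ, ih]
      simp only [add_mul, mul_add, smul_mul_assoc, mul_smul_comm, one_mul, mul_one, hN,
        smul_zero, add_zero, Nat.add_sub_cancel]
      cases k with
      | zero => simp
      | succ m =>
          simp only [Nat.add_sub_cancel]
          rw [smul_add, smul_smul, smul_smul, add_assoc, ← add_smul]
          congr 2
          · ring
          · push_cast
            ring

theorem smul_eq_zero_of_ne_zero {N : Matrix (Fin 2) (Fin 2) F} (hN : N ≠ 0) {c : F}
    (h : c • N = 0) : c = 0 := by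
  by_contra hc
  apply hN
  have := congrArg (fun X => c⁻¹ • X) h
  simpa [smul_smul, inv_mul_cancel₀ hc] using this

/-- A non-zero square-zero matrix has trace zero. -/
theorem trace_eq_zero_of_sqzero {N : Matrix (Fin 2) (Fin 2) F} (hN : N * N = 0) (hN0 : N ≠ 0) :
    N.trace = 0 := by
  have hdet : N.det = 0 := by
    have := congrArg Matrix.det hN
    rw [Matrix.det_mul] at this
    simpa using this
  have h := cayley_hamilton_two N
  rw [hN, hdet, zero_smul, sub_zero] at h
  exact smul_eq_zero_of_ne_zero hN0 h.symm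

/-- If `N ≠ 0`, `N² = 0`, `N e = 0`, `e ≠ 0` and `tr (x N) = 0`, then `x` stabilises the line
spanned by `e`. -/
theorem exists_smul_of_trace_mul_eq_zero {N : Matrix (Fin 2) (Fin 2) F} (hN : N * N = 0)
    (hN0 : N ≠ 0) {e : Fin 2 → F} (he : e ≠ 0) (hNe : N *ᵥ e = 0) (x : Matrix (Fin 2) (Fin 2) F)
    (hx : (x * N).trace = 0) : ∃ c : F, x *ᵥ e = c • e := by
  have htr := trace_eq_zero_of_sqzero hN hN0
  rw [Matrix.trace_fin_two] at htr
  have hd : N 1 1 = -N 0 0 := by linear_combination htr
  have e0 := congrFun hNe 0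
  have e1 := congrFun hNe 1
  simp only [Matrix.mulVec, dotProduct, Fin.sum_univ_two, Pi.zero_apply] at e0 e1
  rw [hd] at e1
  rw [Matrix.trace_fin_two] at hx
  simp only [Matrix.mul_apply, Fin.sum_univ_two] at hx
  rw [hd] at hx
  -- the wedge `x e ∧ e` vanishes
  have hw : (x 0 0 * e 0 + x 0 1 * e 1) * e 1 - (x 1 0 * e 0 + x 1 1 * e 1) * e 0 = 0 := by
    by_cases h0 : e 0 = 0
    · have h1 : e 1 ≠ 0 := by
        intro h1
        apply he
        funext i
        fin_cases i <;> simp [h0, h1]
      rw [h0] at e0 e1 ⊢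
      have hb : N 0 1 = 0 := by
        have : N 0 1 * e 1 = 0 := by linear_combination e0
        exact (mul_eq_zero.mp this).resolve_right h1
      have ha : N 0 0 = 0 := by
        have : N 0 0 * e 1 = 0 := by linear_combination -e1
        exact (mul_eq_zero.mp this).resolve_right h1
      have hc : N 1 0 ≠ 0 := by
        intro hc
        apply hN0
        ext i j
        fin_cases i <;> fin_cases j <;> simp [ha, hb, hc, hd]
      rw [ha, hb] at hx
      have hq : x 0 1 = 0 := by
        have : x 0 1 * N 1 0 = 0 := by linear_combination hx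
        exact (mul_eq_zero.mp this).resolve_right hc
      rw [hq]
      ring
    · have hb : N 0 1 ≠ 0 := by
        intro hb
        rw [hb] at e0
        have ha : N 0 0 = 0 := by
          have : N 0 0 * e 0 = 0 := by linear_combination e0
          exact (mul_eq_zero.mp this).resolve_right h0
        rw [ha] at e1
        have hc : N 1 0 = 0 := by
          have : N 1 0 * e 0 = 0 := by linear_combination e1
          exact (mul_eq_zero.mp this).resolve_right h0
        apply hN0
        ext i j
        fin_cases i <;> fin_cases j <;> simp [ha, hb, hc, hd]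
      have key : N 0 1 * ((x 0 0 * e 0 + x 0 1 * e 1) * e 1 - (x 1 0 * e 0 + x 1 1 * e 1) * e 0)
          = 0 := by
        have ha : N 0 0 * e 0 = -(N 0 1 * e 1) := by linear_combination e0
        have hc : N 1 0 * e 0 = N 0 0 * e 1 := by linear_combination e1
        linear_combination (-(e 0) ^ 2) * hx +
          (e 0 * (x 0 0 - x 1 1) + x 0 1 * e 1) * ha + (e 0 * x 0 1) * hc
      exact (mul_eq_zero.mp key).resolve_left hb
  by_cases h0 : e 0 = 0
  · have h1 : e 1 ≠ 0 := by
      intro h1
      apply he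
      funext i
      fin_cases i <;> simp [h0, h1]
    refine ⟨(x 1 0 * e 0 + x 1 1 * e 1) / e 1, ?_⟩
    funext i
    fin_cases i
    · simp only [Matrix.mulVec, dotProduct, Fin.sum_univ_two, Pi.smul_apply, smul_eq_mul]
      show x 0 0 * e 0 + x 0 1 * e 1 = (x 1 0 * e 0 + x 1 1 * e 1) / e 1 * e 0
      field_simp
      linear_combination hw
    · simp only [Matrix.mulVec, dotProduct, Fin.sum_univ_two, Pi.smul_apply, smul_eq_mul]
      show x 1 0 * e 0 + x 1 1 * e 1 = (x 1 0 * e 0 + x 1 1 * e 1) / e 1 * e 1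
      field_simp
  · refine ⟨(x 0 0 * e 0 + x 0 1 * e 1) / e 0, ?_⟩
    funext i
    fin_cases i
    · simp only [Matrix.mulVec, dotProduct, Fin.sum_univ_two, Pi.smul_apply, smul_eq_mul]
      show x 0 0 * e 0 + x 0 1 * e 1 = (x 0 0 * e 0 + x 0 1 * e 1) / e 0 * e 0
      field_simp
    · simp only [Matrix.mulVec, dotProduct, Fin.sum_univ_two, Pi.smul_apply, smul_eq_mul]
      show x 1 0 * e 0 + x 1 1 * e 1 = (x 0 0 * e 0 + x 0 1 * e 1) / e 0 * e 1
      field_simp
      linear_combination -hw

/-- `N ^ (k + 1) = (tr N) ^ k • N` for a singular `2 × 2` matrix. -/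
theorem pow_succ_of_det_eq_zero (N : Matrix (Fin 2) (Fin 2) F) (hdet : N.det = 0) (k : ℕ) :
    N ^ (k + 1) = N.trace ^ k • N := by
  induction k with
  | zero => simp
  | succ k ih =>
      rw [pow_succ, ih, smul_mul_assoc, cayley_hamilton_two N, hdet, zero_smul, sub_zero,
        smul_smul, pow_succ]

/-- A nilpotent `2 × 2` matrix over a field has square zero. -/
theorem sqzero_of_pow_eq_zero (N : Matrix (Fin 2) (Fin 2) F) (k : ℕ) (hk : N ^ k = 0) :
    N * N = 0 := by
  by_cases hN0 : N = 0
  · rw [hN0, mul_zero]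
  have hk0 : k ≠ 0 := by
    intro h
    subst h
    simp at hk
  have hdet : N.det = 0 := by
    have := congrArg Matrix.det hk
    rw [Matrix.det_pow] at this
    have h0 : (0 : Matrix (Fin 2) (Fin 2) F).det = 0 := by simp
    rw [h0] at this
    exact (pow_eq_zero_iff hk0).mp this
  cases k with
  | zero => simp at hk
  | succ k =>
      rw [pow_succ_of_det_eq_zero N hdet] at hk
      have htr : N.trace ^ k = 0 := smul_eq_zero_of_ne_zero hN0 hk
      have h := cayley_hamilton_two N
      rw [hdet, zero_smul, sub_zero] at h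
      rcases Nat.eq_zero_or_pos k with h0 | hpos
      · subst h0
        simp at htr
      · have : N.trace = 0 := (pow_eq_zero_iff (Nat.pos_iff_ne_zero.mp hpos)).mp htr
        rw [h, this, zero_smul]

end General

section CharL

variable {K : Type*} [Field K] {ℓ : ℕ} [Fact ℓ.Prime] [CharP K ℓ]

/-- An element of order `ℓ` of `GL₂(K)`, `char K = ℓ` is `1 + N` with `N ≠ 0`, `N² = 0`. -/
theorem sqzero_of_orderOf_eq (u : GL (Fin 2) K) (hu : orderOf u = ℓ) :
    ((u : Matrix (Fin 2) (Fin 2) K) - 1) * ((u : Matrix (Fin 2) (Fin 2) K) - 1) = 0 ∧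
      (u : Matrix (Fin 2) (Fin 2) K) - 1 ≠ 0 := by
  have hℓ : ℓ.Prime := Fact.out
  constructor
  · apply sqzero_of_pow_eq_zero _ ℓ
    have h := pow_orderOf_eq_one u
    rw [hu] at h
    rw [sub_pow_char_of_commute ℓ (Commute.one_right _), one_pow, ← Units.val_pow_eq_pow_val, h]
    simp
  · intro h
    have h1 : u = 1 := by
      apply Units.ext
      rw [sub_eq_zero] at h
      simpa using h
    rw [h1, orderOf_one] at hu
    exact hℓ.one_lt.ne hu

omit [Fact ℓ.Prime] [CharP K ℓ] in
theorem unip_pow_val (u : GL (Fin 2) K)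
    (hN : ((u : Matrix (Fin 2) (Fin 2) K) - 1) * ((u : Matrix (Fin 2) (Fin 2) K) - 1) = 0)
    (k : ℕ) :
    ((u ^ k : GL (Fin 2) K) : Matrix (Fin 2) (Fin 2) K) =
      1 + (k : K) • ((u : Matrix (Fin 2) (Fin 2) K) - 1) := by
  have h := add_sqzero_pow _ hN (1 : K) k
  simp only [one_smul, one_pow, mul_one] at h
  rw [Units.val_pow_eq_pow_val]
  rw [← h]
  congr 1
  abel

omit [Fact ℓ.Prime] in
/-- **FI-1c.** A non-scalar element of `GL₂(K)`, `char K = ℓ`, `ℓ` odd, with zero discriminant has order
divisible by `ℓ`. -/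
theorem dvd_orderOf_of_disc_eq_zero (h2 : (2 : K) ≠ 0) (g : GL (Fin 2) K)
    (hns : ∀ c : K, (g : Matrix (Fin 2) (Fin 2) K) ≠ c • 1)
    (hdisc : (g : Matrix (Fin 2) (Fin 2) K).trace ^ 2 -
      4 * (g : Matrix (Fin 2) (Fin 2) K).det = 0) :
    ℓ ∣ orderOf g := by
  set A : Matrix (Fin 2) (Fin 2) K := (g : Matrix (Fin 2) (Fin 2) K) with hA
  set s : K := A.trace / 2 with hs
  set N : Matrix (Fin 2) (Fin 2) K := A - s • 1 with hNdef
  have h4 : (4 : K) = 2 * 2 := by norm_num
  have hdet : A.det = s ^ 2 := by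
    rw [hs]
    field_simp
    linear_combination -hdisc
  have htr : A.trace = 2 * s := by
    rw [hs]
    field_simp
  have hN : N * N = 0 := by
    rw [hNdef]
    simp only [sub_mul, mul_sub, smul_mul_assoc, mul_smul_comm, one_mul, mul_one, smul_sub,
      smul_smul]
    rw [cayley_hamilton_two A, hdet, htr]
    module
  have hAs : A = s • 1 + N := by
    rw [hNdef]
    abel
  have hdetne : A.det ≠ 0 := by
    have : IsUnit A.det := by
      rw [hA]
      exact (Matrix.isUnit_iff_isUnit_det _).mp (Units.isUnit g)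
    exact this.ne_zero
  have hs0 : s ≠ 0 := by
    intro h
    rw [h] at hdet
    simp at hdet
    exact hdetne hdet
  have hNns : ∀ c : K, N ≠ c • 1 := by
    intro c hc
    apply hns (s + c)
    rw [hAs, hc, add_smul]
  have hpow : A ^ orderOf g = 1 := by
    rw [hA, ← Units.val_pow_eq_pow_val, pow_orderOf_eq_one]
    rfl
  rw [hAs, add_sqzero_pow N hN s (orderOf g)] at hpow
  rw [← CharP.cast_eq_zero_iff K ℓ]
  by_contra hk
  have hc : ((orderOf g : ℕ) : K) * s ^ (orderOf g - 1) ≠ 0 :=
    mul_ne_zero hk (pow_ne_zero _ hs0)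
  apply hNns ((1 - s ^ orderOf g) / (((orderOf g : ℕ) : K) * s ^ (orderOf g - 1)))
  have h5 : (((orderOf g : ℕ) : K) * s ^ (orderOf g - 1)) • N =
      (1 - s ^ orderOf g) • (1 : Matrix (Fin 2) (Fin 2) K) := by
    calc (((orderOf g : ℕ) : K) * s ^ (orderOf g - 1)) • N
        = (s ^ orderOf g • (1 : Matrix (Fin 2) (Fin 2) K) +
            (((orderOf g : ℕ) : K) * s ^ (orderOf g - 1)) • N) -
            s ^ orderOf g • (1 : Matrix (Fin 2) (Fin 2) K) := by abel
      _ = 1 - s ^ orderOf g • (1 : Matrix (Fin 2) (Fin 2) K) := by rw [hpow]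
      _ = (1 - s ^ orderOf g) • (1 : Matrix (Fin 2) (Fin 2) K) := by
        rw [sub_smul, one_smul]
  have h6 := congrArg (fun X => (((orderOf g : ℕ) : K) * s ^ (orderOf g - 1))⁻¹ • X) h5
  simp only [smul_smul, inv_mul_cancel₀ hc, one_smul] at h6
  rw [h6, div_eq_inv_mul]

end CharL

end Fermat.Agent.S48.FI
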