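import Fermat.Agent.S48.FI.Setup
import Fermat.Agent.S48.FI.Unip
import Fermat.Agent.S48.FI.Landau

/-!
# S48 / FI (helper768): the case `ℓ ∤ |G|`, `ℓ` odd

For a non-scalar `g ∈ G` let `C = C_G(g)`.  On every left coset `x C` with
`(tr x, tr (x g)) ≠ (0, 0)` the map `(trace, det)` is at most `2`-to-`1`; the other elements of
`G` lie in one coset.  Hence `C(η, M)` forces `[G : C] ≤ 2` (and then `|G|` is bounded) or
`|C| ≤ 12 M`; in the latter case the Landau bound applies.
-/

set_option autoImplicit false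

namespace Fermat.Agent.S48.FI

open Matrix

section General

variable {F : Type*} [Field F] {G : Subgroup (GL (Fin 2) F)}

/-- The matrix of an element of a subgroup of `GL₂(F)`. -/
def matOf (γ : G) : Matrix (Fin 2) (Fin 2) F :=
  ((γ : GL (Fin 2) F) : Matrix (Fin 2) (Fin 2) F)

theorem matOf_mul (a b : G) : matOf (a * b) = matOf a * matOf b := rfl

theorem matOf_one : matOf (1 : G) = 1 := rfl

theorem matOf_injective : Function.Injective (matOf : G → Matrix (Fin 2) (Fin 2) F) :=
  fun _ _ h => Subtype.ext (Units.ext h)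

theorem matOf_inv_mul (a : G) : matOf a⁻¹ * matOf a = 1 := by
  rw [← matOf_mul, inv_mul_cancel, matOf_one]

theorem matOf_mul_inv (a : G) : matOf a * matOf a⁻¹ = 1 := by
  rw [← matOf_mul, mul_inv_cancel, matOf_one]

theorem det_matOf_ne_zero (a : G) : (matOf a).det ≠ 0 := by
  have h := congrArg Matrix.det (matOf_inv_mul a)
  rw [Matrix.det_mul, Matrix.det_one] at h
  intro h0
  rw [h0, mul_zero] at h
  exact zero_ne_one h

theorem trDet_eq (a : G) : trDet (a : GL (Fin 2) F) = ((matOf a).trace, (matOf a).det) := rfl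

theorem commute_matOf_of_mem_centralizer {g a : G} (h : a ∈ Subgroup.centralizer {g}) :
    Commute (matOf a) (matOf g) := by
  have := Subgroup.mem_centralizer_iff.mp h g (Set.mem_singleton g)
  have h2 := congrArg matOf this
  rw [matOf_mul, matOf_mul] at h2
  exact h2.symm

/-- On a good coset of the centraliser of `g`, `(trace, det)` is at most `2`-to-`1`. -/
theorem card_le_two_mul_of_good (g x : G) (hg : ∀ c : F, matOf g ≠ c • 1)
    (hdisc : (matOf g).trace ^ 2 - 4 * (matOf g).det ≠ 0)
    (hx : ¬ ((matOf x).trace = 0 ∧ (matOf x * matOf g).trace = 0))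
    (S : Finset G) (hS : ∀ y ∈ S, x⁻¹ * y ∈ Subgroup.centralizer {g})
    (P : Finset (F × F)) (hP : ∀ y ∈ S, trDet (y : GL (Fin 2) F) ∈ P) :
    S.card ≤ 2 * P.card := by
  classical
  refine card_le_two_mul_of_fibre S (fun y => trDet (y : GL (Fin 2) F)) P hP ?_
  -- coordinates of the elements of the coset
  have hcoord : ∀ y ∈ S, ∃ α β : F, matOf y = matOf x * (α • 1 + β • matOf g) ∧
      (matOf y).trace = α * (matOf x).trace + β * (matOf x * matOf g).trace ∧
      (matOf y).det = (matOf x).det * (α ^ 2 + α * β * (matOf g).trace + β ^ 2 * (matOf g).det) := by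
    intro y hy
    obtain ⟨α, β, hαβ⟩ := exists_eq_add_smul_of_commute (matOf g) (matOf (x⁻¹ * y)) hg
      (commute_matOf_of_mem_centralizer (hS y hy))
    have h1 : matOf y = matOf x * (α • 1 + β • matOf g) := by
      rw [← hαβ, ← matOf_mul]
      congr 1
      group
    refine ⟨α, β, h1, ?_, ?_⟩
    · rw [h1, trace_mul_add_smul]
    · rw [h1, Matrix.det_mul, det_add_smul]
  intro a ha b hb c hc hab hac
  obtain ⟨α₀, β₀, ma, ta, da⟩ := hcoord a ha
  obtain ⟨α₁, β₁, mb, tb, db⟩ := hcoord b hb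
  obtain ⟨α₂, β₂, mc, tc, dc⟩ := hcoord c hc
  rw [trDet_eq, trDet_eq, Prod.mk.injEq] at hab hac
  have hdx := det_matOf_ne_zero x
  have hτ : (matOf x).trace ≠ 0 ∨ (matOf x * matOf g).trace ≠ 0 := by
    by_contra h
    push Not at h
    exact hx h
  have hδ : α₀ ^ 2 + α₀ * β₀ * (matOf g).trace + β₀ ^ 2 * (matOf g).det ≠ 0 := by
    intro h0
    rw [h0, mul_zero] at da
    exact det_matOf_ne_zero a da
  have c₁ : α₁ ^ 2 + α₁ * β₁ * (matOf g).trace + β₁ ^ 2 * (matOf g).det =
      α₀ ^ 2 + α₀ * β₀ * (matOf g).trace + β₀ ^ 2 * (matOf g).det := by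
    apply mul_left_cancel₀ hdx
    rw [← da, ← db, hab.2]
  have c₂ : α₂ ^ 2 + α₂ * β₂ * (matOf g).trace + β₂ ^ 2 * (matOf g).det =
      α₀ ^ 2 + α₀ * β₀ * (matOf g).trace + β₀ ^ 2 * (matOf g).det := by
    apply mul_left_cancel₀ hdx
    rw [← da, ← dc, hac.2]
  have l₀ : α₀ * (matOf x).trace + β₀ * (matOf x * matOf g).trace = (matOf a).trace := ta.symm
  have l₁ : α₁ * (matOf x).trace + β₁ * (matOf x * matOf g).trace = (matOf a).trace := by
    rw [← tb, hab.1]
  have l₂ : α₂ * (matOf x).trace + β₂ * (matOf x * matOf g).trace = (matOf a).trace := by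
    rw [← tc, hac.1]
  rcases line_conic (matOf g).trace (matOf g).det (matOf x).trace (matOf x * matOf g).trace
    (matOf a).trace _ hdisc hτ hδ α₀ β₀ α₁ β₁ α₂ β₂ l₀ l₁ l₂ rfl c₁ c₂ with h | h | h
  · left
    apply matOf_injective
    rw [ma, mb, h.1, h.2]
  · right; left
    apply matOf_injective
    rw [ma, mc, h.1, h.2]
  · right; right
    apply matOf_injective
    rw [mb, mc, h.1, h.2]

/-- The bad elements lie in one left coset of the centraliser. -/
theorem inv_mul_mem_centralizer_of_bad (g x y : G)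
    (hx : (matOf x).trace = 0 ∧ (matOf x * matOf g).trace = 0)
    (hy : (matOf y).trace = 0 ∧ (matOf y * matOf g).trace = 0) :
    x⁻¹ * y ∈ Subgroup.centralizer {g} := by
  rw [Subgroup.mem_centralizer_iff]
  intro h hh
  rw [Set.mem_singleton_iff] at hh
  subst hh
  apply matOf_injective
  have ex := mul_eq_conj_mul_of_bad (matOf x) (matOf h) hx.1 hx.2
  have ey := mul_eq_conj_mul_of_bad (matOf y) (matOf h) hy.1 hy.2
  set Gb := (matOf h).trace • (1 : Matrix (Fin 2) (Fin 2) F) - matOf h with hGb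
  have e1 : matOf h * matOf x⁻¹ = matOf x⁻¹ * Gb := by
    calc matOf h * matOf x⁻¹ = (matOf x⁻¹ * matOf x) * matOf h * matOf x⁻¹ := by
          rw [matOf_inv_mul, one_mul]
      _ = matOf x⁻¹ * (matOf x * matOf h) * matOf x⁻¹ := by simp only [mul_assoc]
      _ = matOf x⁻¹ * (Gb * matOf x) * matOf x⁻¹ := by rw [ex]
      _ = matOf x⁻¹ * Gb * (matOf x * matOf x⁻¹) := by simp only [mul_assoc]
      _ = matOf x⁻¹ * Gb := by rw [matOf_mul_inv, mul_one]
  rw [matOf_mul, matOf_mul, matOf_mul, matOf_mul, ← mul_assoc, e1, mul_assoc, mul_assoc, ey]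

theorem card_le_of_bad [Finite G] (g : G) (S : Finset G)
    (hS : ∀ y ∈ S, (matOf y).trace = 0 ∧ (matOf y * matOf g).trace = 0) :
    S.card ≤ Nat.card (Subgroup.centralizer {g}) := by
  classical
  haveI : Fintype G := Fintype.ofFinite G
  rcases S.eq_empty_or_nonempty with he | ⟨x₀, hx₀⟩
  · rw [he]; simp
  · have h1 : S.card ≤ (Finset.univ.filter (fun a : G => a ∈ Subgroup.centralizer {g})).card := by
      refine Finset.card_le_card_of_injOn (fun y => x₀⁻¹ * y) ?_ ?_
      · intro y hy
        rw [Finset.mem_coe, Finset.mem_filter]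
        exact ⟨Finset.mem_univ _, inv_mul_mem_centralizer_of_bad g x₀ y (hS x₀ hx₀)
          (hS y (Finset.mem_coe.mp hy))⟩
      · intro a _ b _ hab
        exact mul_left_cancel hab
    have h2 : (Finset.univ.filter (fun a : G => a ∈ Subgroup.centralizer {g})).card =
        Nat.card (Subgroup.centralizer {g}) := by
      rw [Nat.card_eq_fintype_card, Fintype.card_subtype]
    omega

/-- Scalar elements are central. -/
theorem mem_center_of_scalar (γ : G) (c : F) (h : matOf γ = c • 1) :
    γ ∈ Subgroup.center G := by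
  rw [Subgroup.mem_center_iff]
  intro x
  apply matOf_injective
  rw [matOf_mul, matOf_mul, h]
  simp

end General

end Fermat.Agent.S48.FI
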