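import Fermat.Agent.S48.FI.Setup
import Fermat.Agent.S48.FI.Unip

/-!
# S48 / FI (helper768): the case `ℓ ∣ |G|`

If `ℓ ∣ |G|`, `G ≤ GL₂(F)` finite, `char F = ℓ`, stabilises no line and satisfies `C(η, M)`, then
`(1 - 2 η) ℓ ≤ 2 M`.
-/

set_option autoImplicit false

namespace Fermat.Agent.S48.FI

open Matrix

variable {F : Type*} [Field F] {ℓ : ℕ} [Fact ℓ.Prime] [CharP F ℓ]

omit [Fact ℓ.Prime] [CharP F ℓ] in
/-- In a coset `x ⟨u⟩` with `tr (x N) ≠ 0` (`u = 1 + N` of order `ℓ`), the trace is injective. -/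
theorem eq_of_trace_eq_of_mem_zpowers (u x y₁ y₂ : GL (Fin 2) F) (hfin : IsOfFinOrder u)
    (hN : ((u : Matrix (Fin 2) (Fin 2) F) - 1) *
      ((u : Matrix (Fin 2) (Fin 2) F) - 1) = 0)
    (hx : ((x : Matrix (Fin 2) (Fin 2) F) *
      ((u : Matrix (Fin 2) (Fin 2) F) - 1)).trace ≠ 0)
    (h₁ : x⁻¹ * y₁ ∈ Subgroup.zpowers u) (h₂ : x⁻¹ * y₂ ∈ Subgroup.zpowers u)
    (htr : (y₁ : Matrix (Fin 2) (Fin 2) F).trace =
      (y₂ : Matrix (Fin 2) (Fin 2) F).trace) : y₁ = y₂ := by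
  rw [← hfin.mem_powers_iff_mem_zpowers, Submonoid.mem_powers_iff] at h₁ h₂
  obtain ⟨n₁, hn₁⟩ := h₁
  obtain ⟨n₂, hn₂⟩ := h₂
  have e₁ : y₁ = x * u ^ n₁ := by rw [hn₁]; group
  have e₂ : y₂ = x * u ^ n₂ := by rw [hn₂]; group
  have t₁ : (y₁ : Matrix (Fin 2) (Fin 2) F).trace =
      (x : Matrix (Fin 2) (Fin 2) F).trace + (n₁ : F) *
        ((x : Matrix (Fin 2) (Fin 2) F) *
          ((u : Matrix (Fin 2) (Fin 2) F) - 1)).trace := by
    rw [e₁, Matrix.GeneralLinearGroup.coe_mul, unip_pow_val u hN n₁, mul_add, mul_one,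
      Matrix.trace_add, mul_smul_comm, Matrix.trace_smul, smul_eq_mul]
  have t₂ : (y₂ : Matrix (Fin 2) (Fin 2) F).trace =
      (x : Matrix (Fin 2) (Fin 2) F).trace + (n₂ : F) *
        ((x : Matrix (Fin 2) (Fin 2) F) *
          ((u : Matrix (Fin 2) (Fin 2) F) - 1)).trace := by
    rw [e₂, Matrix.GeneralLinearGroup.coe_mul, unip_pow_val u hN n₂, mul_add, mul_one,
      Matrix.trace_add, mul_smul_comm, Matrix.trace_smul, smul_eq_mul]
  have hn : (n₁ : F) = (n₂ : F) := by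
    have : ((n₁ : F) - (n₂ : F)) * ((x : Matrix (Fin 2) (Fin 2) F) *
        ((u : Matrix (Fin 2) (Fin 2) F) - 1)).trace = 0 := by
      linear_combination -t₁ + t₂ + htr
    exact sub_eq_zero.mp ((mul_eq_zero.mp this).resolve_right hx)
  have hpow : u ^ n₁ = u ^ n₂ := by
    apply Units.ext
    rw [unip_pow_val u hN n₁, unip_pow_val u hN n₂, hn]
  rw [e₁, e₂, hpow]

omit [Fact ℓ.Prime] [CharP F ℓ] in
/-- An element stabilising the line `F e` and then moved by `g₀` which does not. -/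
theorem not_bad_mul_of_bad (N : Matrix (Fin 2) (Fin 2) F) (hN : N * N = 0) (hN0 : N ≠ 0)
    (e : Fin 2 → F) (he : e ≠ 0) (hNe : N *ᵥ e = 0) (g₀ y : GL (Fin 2) F)
    (hg₀ : ∀ c : F, (g₀ : Matrix (Fin 2) (Fin 2) F) *ᵥ e ≠ c • e)
    (hy : ((y : Matrix (Fin 2) (Fin 2) F) * N).trace = 0) :
    (((g₀ * y : GL (Fin 2) F) : Matrix (Fin 2) (Fin 2) F) * N).trace ≠ 0 := by
  intro hbad
  obtain ⟨c, hc⟩ := exists_smul_of_trace_mul_eq_zero hN hN0 he hNe _ hy
  obtain ⟨c', hc'⟩ := exists_smul_of_trace_mul_eq_zero hN hN0 he hNe _ hbad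
  rw [Matrix.GeneralLinearGroup.coe_mul, ← Matrix.mulVec_mulVec, hc, Matrix.mulVec_smul] at hc'
  have hc0 : c ≠ 0 := by
    intro h0
    rw [h0, zero_smul] at hc
    apply he
    have h1 : ((y⁻¹ : GL (Fin 2) F) : Matrix (Fin 2) (Fin 2) F) *ᵥ
        ((y : Matrix (Fin 2) (Fin 2) F) *ᵥ e) = e := by
      rw [Matrix.mulVec_mulVec, ← Matrix.GeneralLinearGroup.coe_mul, inv_mul_cancel]
      simp
    rw [hc, Matrix.mulVec_zero] at h1
    exact h1.symm
  apply hg₀ (c⁻¹ * c')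
  have := congrArg (fun v => c⁻¹ • v) hc'
  simp only [smul_smul, inv_mul_cancel₀ hc0, one_smul] at this
  exact this

/-- **Case `ℓ ∣ |G|`.** -/
theorem caseDiv (G : Subgroup (GL (Fin 2) F)) [Finite G] (hdiv : ℓ ∣ Nat.card G)
    (hirr : NoStableLine G) (η : ℝ) (M : ℕ) (hC : CondC η M G) :
    (1 - 2 * η) * (ℓ : ℝ) ≤ 2 * M := by
  classical
  have hℓ : ℓ.Prime := Fact.out
  haveI : Fintype G := Fintype.ofFinite G
  obtain ⟨T, P, hT, hP, hTP⟩ := exists_finset_of_condC hC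
  obtain ⟨u', hu'⟩ := exists_prime_orderOf_dvd_card' ℓ hdiv
  set u : GL (Fin 2) F := (u' : GL (Fin 2) F) with hu
  have huord : orderOf u = ℓ := by rw [hu, Subgroup.orderOf_coe, hu']
  have hufin : IsOfFinOrder u := by
    rw [← orderOf_pos_iff, huord]
    exact hℓ.pos
  obtain ⟨hN, hN0⟩ := sqzero_of_orderOf_eq u huord
  set N : Matrix (Fin 2) (Fin 2) F := (u : Matrix (Fin 2) (Fin 2) F) - 1 with hNdef
  have hdet : N.det = 0 := by
    have := congrArg Matrix.det hN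
    rw [Matrix.det_mul] at this
    simpa using this
  obtain ⟨e, he, hNe⟩ := Matrix.exists_mulVec_eq_zero_iff.mpr hdet
  obtain ⟨g₀, hg₀G, hg₀⟩ := hirr e he
  obtain ⟨g₀', hg₀'⟩ : ∃ g₀' : G, (g₀' : GL (Fin 2) F) = g₀ := ⟨⟨g₀, hg₀G⟩, rfl⟩
  obtain ⟨bad, hbad⟩ : ∃ bad : G → Prop, ∀ γ : G, bad γ ↔
      (((γ : GL (Fin 2) F) : Matrix (Fin 2) (Fin 2) F) * N).trace = 0 :=
    ⟨_, fun _ => Iff.rfl⟩
  obtain ⟨K, hK⟩ : ∃ K : Subgroup G, K = Subgroup.zpowers u' := ⟨_, rfl⟩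
  -- good cosets
  have hgood : ∀ x ∈ T, ¬ bad x → ∀ S : Finset G, S ⊆ T → (∀ y ∈ S, x⁻¹ * y ∈ K) →
      S.card ≤ M := by
    intro x _ hx S hS hSK
    rw [hbad] at hx
    refine le_trans (card_le_of_fibre_inj S (fun γ => trDet (γ : GL (Fin 2) F)) P
      (fun a ha => hTP a (hS ha)) ?_) hP
    intro a ha b hb hab
    have hmem : ∀ y : G, x⁻¹ * y ∈ K →
        (x : GL (Fin 2) F)⁻¹ * (y : GL (Fin 2) F) ∈ Subgroup.zpowers u := by
      intro y hy
      rw [hK, Subgroup.mem_zpowers_iff] at hy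
      obtain ⟨k, hk⟩ := hy
      rw [Subgroup.mem_zpowers_iff]
      refine ⟨k, ?_⟩
      have := congrArg (fun γ : G => (γ : GL (Fin 2) F)) hk
      simpa using this
    apply Subtype.ext
    exact eq_of_trace_eq_of_mem_zpowers u x a b hufin hN hx (hmem a (hSK a ha)) (hmem b (hSK b hb))
      (congrArg Prod.fst hab)
  -- bad elements
  have hbadcard : ∀ S : Finset G, (∀ y ∈ S, bad y) → S.card ≤ Nat.card G / 2 := by
    intro S hS
    have hdisj : Disjoint S (S.image (fun y => g₀' * y)) := by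
      rw [Finset.disjoint_left]
      intro a ha ha'
      obtain ⟨y, hy, rfl⟩ := Finset.mem_image.mp ha'
      have h1 := (hbad y).mp (hS y hy)
      have h2 := (hbad _).mp (hS _ ha)
      rw [Subgroup.coe_mul, hg₀'] at h2
      exact not_bad_mul_of_bad N hN hN0 e he hNe g₀ y hg₀ h1 h2
    have hcard : (S.image (fun y => g₀' * y)).card = S.card :=
      Finset.card_image_of_injective S (mul_right_injective g₀')
    have h1 : (S ∪ S.image (fun y => g₀' * y)).card ≤ Fintype.card G := Finset.card_le_univ _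
    rw [Finset.card_union_of_disjoint hdisj, hcard, ← Nat.card_eq_fintype_card] at h1
    omega
  have hmain := card_le_coset_add_bad K T bad M (Nat.card G / 2) hgood hbadcard
  have hidx : ℓ * K.index = Nat.card G := by
    have := Subgroup.card_mul_index K
    rw [hK, Nat.card_zpowers, hu'] at this
    rw [hK]
    exact this
  -- arithmetic
  have hnpos : (0 : ℝ) < Nat.card G := by exact_mod_cast Nat.card_pos
  have hℓpos : (0 : ℝ) < ℓ := by exact_mod_cast hℓ.pos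
  have h2 : ((Nat.card G / 2 : ℕ) : ℝ) ≤ (Nat.card G : ℝ) / 2 := by
    rw [le_div_iff₀ (by norm_num : (0 : ℝ) < 2)]
    exact_mod_cast Nat.div_mul_le_self _ 2
  have h3 : (T.card : ℝ) ≤ M * K.index + (Nat.card G : ℝ) / 2 := by
    calc (T.card : ℝ) ≤ ((M * K.index + Nat.card G / 2 : ℕ) : ℝ) := by exact_mod_cast hmain
      _ = M * K.index + ((Nat.card G / 2 : ℕ) : ℝ) := by push_cast; ring
      _ ≤ M * K.index + (Nat.card G : ℝ) / 2 := by linarith
  have hidx' : (ℓ : ℝ) * K.index = Nat.card G := by exact_mod_cast hidx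
  have hkpos : (0 : ℝ) < K.index := by
    rcases Nat.eq_zero_or_pos K.index with h | h
    · rw [h, mul_zero] at hidx
      have : 0 < Nat.card G := Nat.card_pos
      omega
    · exact_mod_cast h
  have h4 : (1 - η) * ((ℓ : ℝ) * K.index) ≤ M * K.index + (ℓ : ℝ) * K.index / 2 := by
    rw [hidx']
    linarith
  have h5 : ((1 - 2 * η) * (ℓ : ℝ) - 2 * M) * K.index ≤ 0 := by nlinarith
  by_contra hcon
  push Not at hcon
  have : 0 < ((1 - 2 * η) * (ℓ : ℝ) - 2 * M) * K.index := mul_pos (by linarith) hkpos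
  linarith

end Fermat.Agent.S48.FI
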