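import Mathlib

/-!
# S48 / FI (helper768): counting lemmas

* `card_le_mul_index_of_coset_bound`: a finite subset of a group meeting every left coset of a
  subgroup `K` in at most `c` elements has at most `c * [G : K]` elements.
* `card_le_two_mul_of_fibre`, `card_le_of_fibre_inj`: fibre counting.
-/

set_option autoImplicit false

namespace Fermat.Agent.S48.FI

open scoped BigOperators

theorem card_le_mul_index_of_coset_bound {G : Type*} [Group G] [Finite G] (K : Subgroup G)
    (T : Finset G) (c : ℕ)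
    (h : ∀ x ∈ T, ∀ S : Finset G, S ⊆ T → (∀ y ∈ S, x⁻¹ * y ∈ K) → S.card ≤ c) :
    T.card ≤ c * K.index := by
  classical
  haveI : Fintype (G ⧸ K) := Fintype.ofFinite _
  have h1 : T.card = ∑ q ∈ (Finset.univ : Finset (G ⧸ K)),
      (T.filter (fun a => (QuotientGroup.mk a : G ⧸ K) = q)).card :=
    Finset.card_eq_sum_card_fiberwise (fun a _ => Finset.mem_coe.mpr (Finset.mem_univ _))
  have h2 : ∀ q ∈ (Finset.univ : Finset (G ⧸ K)),
      (T.filter (fun a => (QuotientGroup.mk a : G ⧸ K) = q)).card ≤ c := by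
    intro q _
    rcases (T.filter (fun a => (QuotientGroup.mk a : G ⧸ K) = q)).eq_empty_or_nonempty with he | hne
    · rw [he]; simp
    · obtain ⟨x, hx⟩ := hne
      rw [Finset.mem_filter] at hx
      refine h x hx.1 _ (Finset.filter_subset _ _) ?_
      intro y hy
      rw [Finset.mem_filter] at hy
      rw [← QuotientGroup.eq, hx.2, hy.2]
  calc T.card = _ := h1
    _ ≤ ∑ _q ∈ (Finset.univ : Finset (G ⧸ K)), c := Finset.sum_le_sum h2
    _ = c * K.index := by
      rw [Finset.sum_const, smul_eq_mul, Finset.card_univ, Subgroup.index_eq_card,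
        Nat.card_eq_fintype_card, mul_comm]

theorem card_le_two_mul_of_fibre {α β : Type*} (T : Finset α) (f : α → β) (P : Finset β)
    (hP : ∀ a ∈ T, f a ∈ P)
    (h3 : ∀ a ∈ T, ∀ b ∈ T, ∀ c ∈ T, f a = f b → f a = f c → a = b ∨ a = c ∨ b = c) :
    T.card ≤ 2 * P.card := by
  classical
  have h1 : T.card ≤ 2 * (T.image f).card := by
    refine Finset.card_le_mul_card_image T 2 fun b _ => ?_
    by_contra hcon
    push Not at hcon
    obtain ⟨x, hx, y, hy, w, hw, hxy, hxw, hyw⟩ := Finset.two_lt_card.mp hcon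
    rw [Finset.mem_filter] at hx hy hw
    rcases h3 x hx.1 y hy.1 w hw.1 (hx.2.trans hy.2.symm) (hx.2.trans hw.2.symm) with h | h | h
    · exact hxy h
    · exact hxw h
    · exact hyw h
  have h2 : (T.image f).card ≤ P.card := by
    refine Finset.card_le_card ?_
    intro b hb
    obtain ⟨a, ha, rfl⟩ := Finset.mem_image.mp hb
    exact hP a ha
  omega

theorem card_le_of_fibre_inj {α β : Type*} (T : Finset α) (f : α → β) (P : Finset β)
    (hP : ∀ a ∈ T, f a ∈ P) (h2 : ∀ a ∈ T, ∀ b ∈ T, f a = f b → a = b) :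
    T.card ≤ P.card :=
  Finset.card_le_card_of_injOn f (fun a ha => Finset.mem_coe.mpr (hP a (Finset.mem_coe.mp ha)))
    (fun a ha b hb hab => h2 a (Finset.mem_coe.mp ha) b (Finset.mem_coe.mp hb) hab)

end Fermat.Agent.S48.FI
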