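import Fermat.Agent.S48.FI.CaseDiv
import Fermat.Agent.S48.FI.CaseCoprime

/-!
# S48 / FI (helper768): the finite image lemma (Deligne–Serre, Prop. 7.2)

`finiteImage : FiniteImageStatement` and `finiteImage_semisimple : FiniteImageSemisimpleStatement`.
-/

set_option autoImplicit false

namespace Fermat.Agent.S48.FI

open Matrix

variable {F : Type*} [Field F] {ℓ : ℕ} [Fact ℓ.Prime] [CharP F ℓ]

omit [Fact ℓ.Prime] in
theorem disc_ne_zero_of_not_dvd (h2 : (2 : F) ≠ 0) (G : Subgroup (GL (Fin 2) F)) [Finite G]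
    (hnd : ¬ ℓ ∣ Nat.card G) (g : G) (hg : ∀ c : F, matOf g ≠ c • 1) :
    (matOf g).trace ^ 2 - 4 * (matOf g).det ≠ 0 := by
  intro h
  have h1 := dvd_orderOf_of_disc_eq_zero h2 (g : GL (Fin 2) F) hg h
  rw [Subgroup.orderOf_coe] at h1
  exact hnd (h1.trans (orderOf_dvd_natCard g))

omit [Fact ℓ.Prime] in
/-- Key dichotomy for a non-scalar element: `|G|` is bounded or its centraliser is small. -/
theorem card_le_or_centralizer_le (h2 : (2 : F) ≠ 0) (G : Subgroup (GL (Fin 2) F)) [Finite G]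
    (hnd : ¬ ℓ ∣ Nat.card G) (η : ℝ) (hη : η < 1 / 2) (M : ℕ) (T : Finset G)
    (P : Finset (F × F)) (hT : (1 - η) * (Nat.card G : ℝ) ≤ (T.card : ℝ))
    (hP : P.card ≤ M) (hTP : ∀ γ ∈ T, trDet (γ : GL (Fin 2) F) ∈ P)
    (g : G) (hg : ∀ c : F, matOf g ≠ c • 1) :
    (Nat.card G : ℝ) ≤ 8 * M / (1 - 2 * η) + 4 * M ∨
      Nat.card (Subgroup.centralizer {g}) ≤ 12 * M := by
  classical
  have hη1 : 0 < 1 - 2 * η := by linarith
  have hM0 : (0 : ℝ) ≤ M := Nat.cast_nonneg M
  have hdiv0 : 0 ≤ 8 * (M : ℝ) / (1 - 2 * η) := by positivity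
  have hdisc := disc_ne_zero_of_not_dvd h2 G hnd g hg
  obtain ⟨K, hK⟩ : ∃ K : Subgroup G, K = Subgroup.centralizer {g} := ⟨_, rfl⟩
  rw [← hK]
  have hidx : Nat.card K * K.index = Nat.card G := Subgroup.card_mul_index K
  have hnpos : 0 < Nat.card G := Nat.card_pos
  have hcpos : 0 < Nat.card K := Nat.card_pos
  have hipos : 0 < K.index := by
    rcases Nat.eq_zero_or_pos K.index with h | h
    · rw [h, mul_zero] at hidx
      omega
    · exact h
  have hmain : T.card ≤ 2 * M * K.index + Nat.card K := by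
    refine card_le_coset_add_bad K T
      (fun y => (matOf y).trace = 0 ∧ (matOf y * matOf g).trace = 0) (2 * M) (Nat.card K) ?_ ?_
    · intro x _ hx S hS hSK
      have h1 := card_le_two_mul_of_good g x hg hdisc hx S (fun y hy => hK ▸ hSK y hy) P
        (fun y hy => hTP y (hS hy))
      omega
    · intro S hS
      rw [hK]
      exact card_le_of_bad g S hS
  have hidxR : (Nat.card K : ℝ) * (K.index : ℝ) = (Nat.card G : ℝ) := by exact_mod_cast hidx
  have hmainR : (T.card : ℝ) ≤ 2 * M * K.index + Nat.card K := by exact_mod_cast hmain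
  have hcR : (0 : ℝ) < Nat.card K := by exact_mod_cast hcpos
  have hnR : (0 : ℝ) < Nat.card G := by exact_mod_cast hnpos
  rcases Nat.lt_or_ge K.index 3 with hlt | hge
  · left
    obtain h1 | h1 : K.index = 1 ∨ K.index = 2 := by omega
    · -- the centraliser is everything
      have hKtop : ∀ y : G, y ∈ K := by
        intro y
        rw [Subgroup.index_eq_one.mp h1]
        exact Subgroup.mem_top y
      have hgood1 : ¬ ((matOf (1 : G)).trace = 0 ∧ (matOf (1 : G) * matOf g).trace = 0) := by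
        rintro ⟨h, -⟩
        rw [matOf_one, Matrix.trace_one] at h
        simp only [Fintype.card_fin] at h
        exact h2 (by exact_mod_cast h)
      have h3 := card_le_two_mul_of_good g 1 hg hdisc hgood1 T
        (fun y _ => by rw [inv_one, one_mul, ← hK]; exact hKtop y) P hTP
      have h4 : (T.card : ℝ) ≤ 2 * M := by
        have : T.card ≤ 2 * M := by omega
        exact_mod_cast this
      nlinarith
    · -- index two
      rw [h1] at hidxR hmainR
      push_cast at hidxR hmainR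
      have h5 : (1 - 2 * η) * (Nat.card G : ℝ) ≤ 8 * M := by nlinarith
      have h6 : (Nat.card G : ℝ) ≤ 8 * M / (1 - 2 * η) := by
        rw [le_div_iff₀ hη1]
        linarith
      linarith
  · right
    have hiR : (3 : ℝ) ≤ K.index := by exact_mod_cast hge
    have h7 : (1 - η) * ((Nat.card K : ℝ) * K.index) ≤ 2 * M * K.index + Nat.card K := by
      rw [hidxR]
      linarith
    by_contra hcon
    push Not at hcon
    have hcon' : (12 : ℝ) * M + 1 ≤ Nat.card K := by exact_mod_cast hcon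
    -- `(1 - η) > 1/2`
    have h8 : (1 / 2) * ((Nat.card K : ℝ) * K.index) ≤ (1 - η) * ((Nat.card K : ℝ) * K.index) := by
      apply mul_le_mul_of_nonneg_right (by linarith)
      positivity
    have h9 : (Nat.card K : ℝ) * (K.index - 2) ≤ 4 * M * K.index := by nlinarith
    have h10 : (Nat.card K : ℝ) * K.index ≤ 3 * ((Nat.card K : ℝ) * (K.index - 2)) := by
      nlinarith
    have h11 : (12 * (M : ℝ) + 1) * K.index ≤ (Nat.card K : ℝ) * K.index := by
      apply mul_le_mul_of_nonneg_right hcon'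
      linarith
    nlinarith

omit [Fact ℓ.Prime] in
/-- **Case `ℓ ∤ |G|`, `ℓ` odd.** -/
theorem caseCoprime (h2 : (2 : F) ≠ 0) (G : Subgroup (GL (Fin 2) F)) [Finite G]
    (hnd : ¬ ℓ ∣ Nat.card G) (η : ℝ) (hη : η < 1 / 2) (M : ℕ) (hC : CondC η M G) :
    (Nat.card G : ℝ) ≤ 8 * M / (1 - 2 * η) + 4 * M + ((12 * M) ^ (12 * M + 1) : ℕ) := by
  classical
  obtain ⟨T, P, hT, hP, hTP⟩ := exists_finset_of_condC hC
  have hη1 : 0 < 1 - 2 * η := by linarith
  have hM0 : (0 : ℝ) ≤ M := Nat.cast_nonneg M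
  have hdiv0 : 0 ≤ 8 * (M : ℝ) / (1 - 2 * η) := by positivity
  have hL0 : (0 : ℝ) ≤ (((12 * M) ^ (12 * M + 1) : ℕ) : ℝ) := Nat.cast_nonneg _
  have hnR : (0 : ℝ) < Nat.card G := by exact_mod_cast Nat.card_pos
  by_cases hR : (Nat.card G : ℝ) ≤ 8 * M / (1 - 2 * η) + 4 * M
  · linarith
  have key : ∀ g : G, (∀ c : F, matOf g ≠ c • 1) →
      Nat.card (Subgroup.centralizer {g}) ≤ 12 * M := by
    intro g hg
    rcases card_le_or_centralizer_le h2 G hnd η hη M T P hT hP hTP g hg with h | h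
    · exact absurd h hR
    · exact h
  by_cases hns : ∃ g : G, ∀ c : F, matOf g ≠ c • 1
  · obtain ⟨g₁, hg₁⟩ := hns
    have hZ : Nat.card (Subgroup.center G) ≤ 12 * M :=
      le_trans (Subgroup.card_le_of_le (Subgroup.center_le_centralizer {g₁})) (key g₁ hg₁)
    have hCen : ∀ g : G, g ∉ Subgroup.center G →
        Nat.card (Subgroup.centralizer {g}) ≤ 12 * M := by
      intro g hg
      apply key g
      intro c hc
      exact hg (mem_center_of_scalar g c hc)
    have hL := card_le_pow_of_centralizer_le (12 * M) hZ hCen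
    have hL' : (Nat.card G : ℝ) ≤ (((12 * M) ^ (12 * M + 1) : ℕ) : ℝ) := by exact_mod_cast hL
    linarith
  · -- all elements are scalar
    push Not at hns
    exfalso
    apply hR
    have h3 : T.card ≤ P.card := by
      refine card_le_of_fibre_inj T (fun γ => trDet (γ : GL (Fin 2) F)) P hTP ?_
      intro a _ b _ hab
      obtain ⟨ca, hca⟩ := hns a
      obtain ⟨cb, hcb⟩ := hns b
      rw [trDet_eq, trDet_eq, Prod.mk.injEq] at hab
      have htr := hab.1
      rw [hca, hcb, Matrix.trace_smul, Matrix.trace_smul, Matrix.trace_one] at htr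
      simp only [Fintype.card_fin, smul_eq_mul] at htr
      have hcc : ca = cb := by
        have : (ca - cb) * 2 = 0 := by push_cast at htr; linear_combination htr
        exact sub_eq_zero.mp ((mul_eq_zero.mp this).resolve_right h2)
      apply matOf_injective
      rw [hca, hcb, hcc]
    have h4 : (T.card : ℝ) ≤ M := by
      have : T.card ≤ M := le_trans h3 hP
      exact_mod_cast this
    nlinarith

end Fermat.Agent.S48.FI

namespace Fermat.Agent.S48.FI

open Matrix

section Semisimple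

variable {F : Type*} [Field F]

/-- A `2 × 2` matrix killing two linearly independent vectors is zero. -/
theorem eq_zero_of_mulVec_eq_zero (N : Matrix (Fin 2) (Fin 2) F) (v w : Fin 2 → F) (hv : v ≠ 0)
    (hw : ∀ c : F, w ≠ c • v) (h1 : N *ᵥ v = 0) (h2 : N *ᵥ w = 0) : N = 0 := by
  have hD : v 0 * w 1 - v 1 * w 0 ≠ 0 := by
    intro hD
    by_cases h0 : v 0 = 0
    · have hv1 : v 1 ≠ 0 := by
        intro hv1
        apply hv
        funext i
        fin_cases i <;> simp [h0, hv1]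
      rw [h0] at hD
      have hw0 : w 0 = 0 := by
        have : v 1 * w 0 = 0 := by linear_combination -hD
        exact (mul_eq_zero.mp this).resolve_left hv1
      apply hw (w 1 / v 1)
      funext i
      fin_cases i
      · simp [h0, hw0]
      · simp only [Fin.mk_one, Fin.isValue, Pi.smul_apply, smul_eq_mul]
        field_simp
    · apply hw (w 0 / v 0)
      funext i
      fin_cases i
      · simp only [Fin.zero_eta, Fin.isValue, Pi.smul_apply, smul_eq_mul]
        field_simp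
      · simp only [Fin.mk_one, Fin.isValue, Pi.smul_apply, smul_eq_mul]
        field_simp
        linear_combination hD
  have key : ∀ i : Fin 2, N i 0 = 0 ∧ N i 1 = 0 := by
    intro i
    have e1 := congrFun h1 i
    have e2 := congrFun h2 i
    simp only [Matrix.mulVec, dotProduct, Fin.sum_univ_two, Pi.zero_apply] at e1 e2
    constructor
    · have : N i 0 * (v 0 * w 1 - v 1 * w 0) = 0 := by linear_combination w 1 * e1 - v 1 * e2
      exact (mul_eq_zero.mp this).resolve_right hD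
    · have : N i 1 * (v 0 * w 1 - v 1 * w 0) = 0 := by linear_combination v 0 * e2 - w 0 * e1
      exact (mul_eq_zero.mp this).resolve_right hD
  ext i j
  fin_cases j
  · exact (key i).1
  · exact (key i).2

/-- A square-zero matrix with an eigenvector kills it. -/
theorem mulVec_eq_zero_of_sqzero (N : Matrix (Fin 2) (Fin 2) F) (hN : N * N = 0) (v : Fin 2 → F)
    (hv : v ≠ 0) (c : F) (hc : N *ᵥ v = c • v) : N *ᵥ v = 0 := by
  have h1 : N *ᵥ (N *ᵥ v) = 0 := by
    rw [Matrix.mulVec_mulVec, hN, Matrix.zero_mulVec]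
  rw [hc, Matrix.mulVec_smul, hc, smul_smul] at h1
  have hc0 : c * c = 0 := by
    rcases smul_eq_zero.mp h1 with h | h
    · exact h
    · exact absurd h hv
  have : c = 0 := mul_self_eq_zero.mp hc0
  rw [hc, this, zero_smul]

end Semisimple

variable {F : Type*} [Field F] {ℓ : ℕ} [Fact ℓ.Prime] [CharP F ℓ]

/-- A finite semisimple subgroup of `GL₂(F)`, `char F = ℓ`, of order divisible by `ℓ` stabilises
no line. -/
theorem noStableLine_of_stableLinesSplit (G : Subgroup (GL (Fin 2) F)) [Finite G]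
    (hdiv : ℓ ∣ Nat.card G) (hss : StableLinesSplit G) : NoStableLine G := by
  intro v hv
  by_contra hcon
  push Not at hcon
  obtain ⟨w, hw, hwst⟩ := hss v hv hcon
  obtain ⟨u', hu'⟩ := exists_prime_orderOf_dvd_card' ℓ hdiv
  have huord : orderOf (u' : GL (Fin 2) F) = ℓ := by rw [Subgroup.orderOf_coe, hu']
  obtain ⟨hN, hN0⟩ := sqzero_of_orderOf_eq (u' : GL (Fin 2) F) huord
  have hw0 : w ≠ 0 := by
    intro h
    apply hw 0
    rw [h, zero_smul]
  obtain ⟨c, hc⟩ := hcon (u' : GL (Fin 2) F) u'.2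
  obtain ⟨c', hc'⟩ := hwst (u' : GL (Fin 2) F) u'.2
  have e1 : (((u' : GL (Fin 2) F) : Matrix (Fin 2) (Fin 2) F) - 1) *ᵥ v =
      (c - 1) • v := by
    rw [Matrix.sub_mulVec, hc, Matrix.one_mulVec, sub_smul, one_smul]
  have e2 : (((u' : GL (Fin 2) F) : Matrix (Fin 2) (Fin 2) F) - 1) *ᵥ w =
      (c' - 1) • w := by
    rw [Matrix.sub_mulVec, hc', Matrix.one_mulVec, sub_smul, one_smul]
  exact hN0 (eq_zero_of_mulVec_eq_zero _ v w hv hw
    (mulVec_eq_zero_of_sqzero _ hN v hv _ e1) (mulVec_eq_zero_of_sqzero _ hN w hw0 _ e2))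

/-- **The finite image lemma, general-field form**: `η < 1/2`, `M` ⟹ `A` such that for every
prime `ℓ > A`, every field `F` of characteristic `ℓ` and every finite semisimple subgroup
`G ≤ GL₂(F)` with `C(η, M)` one has `|G| ≤ A`. -/
theorem finiteImage_general (η : ℝ) (M : ℕ) (hη : η < 1 / 2) :
    ∃ A : ℕ, ∀ ℓ : ℕ, ℓ.Prime → A < ℓ → ∀ (F : Type*) [Field F] [CharP F ℓ]
      (G : Subgroup (GL (Fin 2) F)), Finite G → StableLinesSplit G → CondC η M G →
      Nat.card G ≤ A := by
  have hη1 : 0 < 1 - 2 * η := by linarith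
  have hM0 : (0 : ℝ) ≤ M := Nat.cast_nonneg M
  refine ⟨⌈8 * (M : ℝ) / (1 - 2 * η) + 4 * M⌉₊ + (12 * M) ^ (12 * M + 1) +
    ⌈2 * (M : ℝ) / (1 - 2 * η)⌉₊ + 2, ?_⟩
  intro ℓ hℓ hA F _ _ G hfin hss hC
  haveI : Fact ℓ.Prime := ⟨hℓ⟩
  haveI : Finite G := hfin
  have hdiv : ¬ ℓ ∣ Nat.card G := by
    intro hdiv
    have h1 := caseDiv G hdiv (noStableLine_of_stableLinesSplit G hdiv hss) η M hC
    have h3 : (ℓ : ℝ) ≤ 2 * M / (1 - 2 * η) := by
      rw [le_div_iff₀ hη1]
      linarith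
    have h4 : ℓ ≤ ⌈2 * (M : ℝ) / (1 - 2 * η)⌉₊ := by
      have := le_trans h3 (Nat.le_ceil _)
      exact_mod_cast this
    omega
  have h2' : (2 : F) ≠ 0 := by
    intro h
    have h' : ((2 : ℕ) : F) = 0 := by exact_mod_cast h
    rw [CharP.cast_eq_zero_iff F ℓ] at h'
    have := Nat.le_of_dvd (by norm_num) h'
    omega
  have h1 := caseCoprime h2' G hdiv η hη M hC
  have h3 : (Nat.card G : ℝ) ≤
      ((⌈8 * (M : ℝ) / (1 - 2 * η) + 4 * M⌉₊ + (12 * M) ^ (12 * M + 1) : ℕ) : ℝ) := by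
    push_cast
    have := Nat.le_ceil (8 * (M : ℝ) / (1 - 2 * η) + 4 * M)
    push_cast at h1
    linarith
  have h4 : Nat.card G ≤ ⌈8 * (M : ℝ) / (1 - 2 * η) + 4 * M⌉₊ + (12 * M) ^ (12 * M + 1) := by
    exact_mod_cast h3
  omega

end Fermat.Agent.S48.FI

namespace Fermat.Agent.S48.FI

open Matrix

variable {ℓ : ℕ} [Fact ℓ.Prime]

/-- **The finite image lemma** (Deligne–Serre, Prop. 7.2). -/
theorem finiteImage : FiniteImageStatement := by
  intro η M hη
  have hη1 : 0 < 1 - 2 * η := by linarith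
  have hM0 : (0 : ℝ) ≤ M := Nat.cast_nonneg M
  refine ⟨⌈8 * (M : ℝ) / (1 - 2 * η) + 4 * M⌉₊ + (12 * M) ^ (12 * M + 1) +
    ⌈2 * (M : ℝ) / (1 - 2 * η)⌉₊ ^ 4 + 16, ?_⟩
  intro ℓ _ G hss hC
  have hℓ : ℓ.Prime := Fact.out
  by_cases h2 : ℓ = 2
  · have h := card_subgroup_GL2_le ℓ G
    have h16 : ℓ ^ 4 = 16 := by rw [h2]; norm_num
    omega
  by_cases hdiv : ℓ ∣ Nat.card G
  · have h1 := caseDiv G hdiv (hss hdiv) η M hC
    have h3 : (ℓ : ℝ) ≤ 2 * M / (1 - 2 * η) := by
      rw [le_div_iff₀ hη1]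
      linarith
    have h4 : ℓ ≤ ⌈2 * (M : ℝ) / (1 - 2 * η)⌉₊ := by
      have := le_trans h3 (Nat.le_ceil _)
      exact_mod_cast this
    have h5 := card_subgroup_GL2_le ℓ G
    have h6 : ℓ ^ 4 ≤ ⌈2 * (M : ℝ) / (1 - 2 * η)⌉₊ ^ 4 := Nat.pow_le_pow_left h4 4
    omega
  · have h2' : (2 : ZMod ℓ) ≠ 0 := by
      intro h
      have h' : ((2 : ℕ) : ZMod ℓ) = 0 := by exact_mod_cast h
      rw [ZMod.natCast_eq_zero_iff] at h'
      exact h2 ((Nat.prime_dvd_prime_iff_eq hℓ Nat.prime_two).mp h')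
    have h1 := caseCoprime h2' G hdiv η hη M hC
    have h3 : (Nat.card G : ℝ) ≤
        ((⌈8 * (M : ℝ) / (1 - 2 * η) + 4 * M⌉₊ + (12 * M) ^ (12 * M + 1) : ℕ) : ℝ) := by
      push_cast
      have := Nat.le_ceil (8 * (M : ℝ) / (1 - 2 * η) + 4 * M)
      push_cast at h1
      linarith
    have h4 : Nat.card G ≤ ⌈8 * (M : ℝ) / (1 - 2 * η) + 4 * M⌉₊ + (12 * M) ^ (12 * M + 1) := by
      exact_mod_cast h3
    omega




/-- **The finite image lemma for semisimple subgroups.** -/
theorem finiteImage_semisimple : FiniteImageSemisimpleStatement := by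
  intro η M hη
  obtain ⟨A, hA⟩ := finiteImage η M hη
  exact ⟨A, fun ℓ _ G hss hC => hA ℓ G (fun hdiv => noStableLine_of_stableLinesSplit G hdiv hss) hC⟩

end Fermat.Agent.S48.FI
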