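import Mathlib

/-!
# S48 / FI (helper768): elementary facts on `2 × 2` matrices

* `polarized_cayley_hamilton`, `cayley_hamilton_two`
* `exists_eq_add_smul_of_commute`: the commutant of a non-scalar matrix `g` is `F + F g`
* `line_conic`: a line meets a non-degenerate conic `α² + t α β + d β² = δ ≠ 0` in at most two
  points
* `commute_of_bad`: two matrices `x, y` with `tr x = tr (x g) = 0` (same for `y`), `x`
  invertible, give `x⁻¹ y` commuting with `g`.
-/

set_option autoImplicit false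

namespace Fermat.Agent.S48.FI

open Matrix

variable {F : Type*} [Field F]

theorem polarized_cayley_hamilton (x g : Matrix (Fin 2) (Fin 2) F) :
    x * g + g * x =
      x.trace • g + g.trace • x + ((x * g).trace - x.trace * g.trace) • (1 : Matrix (Fin 2) (Fin 2) F) := by
  ext i j
  fin_cases i <;> fin_cases j <;>
    simp [Matrix.mul_apply, Fin.sum_univ_two, Matrix.trace_fin_two] <;> ring

theorem cayley_hamilton_two (g : Matrix (Fin 2) (Fin 2) F) :
    g * g = g.trace • g - g.det • (1 : Matrix (Fin 2) (Fin 2) F) := by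
  ext i j
  fin_cases i <;> fin_cases j <;>
    simp [Matrix.mul_apply, Fin.sum_univ_two, Matrix.trace_fin_two, Matrix.det_fin_two] <;> ring

theorem trace_mul_add_smul (x g : Matrix (Fin 2) (Fin 2) F) (α β : F) :
    (x * (α • (1 : Matrix (Fin 2) (Fin 2) F) + β • g)).trace = α * x.trace + β * (x * g).trace := by
  simp [mul_add, Matrix.trace_add, Matrix.trace_smul]

theorem det_add_smul (g : Matrix (Fin 2) (Fin 2) F) (α β : F) :
    (α • (1 : Matrix (Fin 2) (Fin 2) F) + β • g).det =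
      α ^ 2 + α * β * g.trace + β ^ 2 * g.det := by
  simp [Matrix.det_fin_two, Matrix.trace_fin_two]
  ring

/-- The commutant of a non-scalar `2 × 2` matrix `g` is `F + F g`. -/
theorem exists_eq_add_smul_of_commute (g h : Matrix (Fin 2) (Fin 2) F)
    (hg : ∀ c : F, g ≠ c • (1 : Matrix (Fin 2) (Fin 2) F)) (hc : Commute h g) :
    ∃ α β : F, h = α • (1 : Matrix (Fin 2) (Fin 2) F) + β • g := by
  have e00 := congrFun (congrFun hc.eq 0) 0
  have e01 := congrFun (congrFun hc.eq 0) 1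
  have e10 := congrFun (congrFun hc.eq 1) 0
  have e11 := congrFun (congrFun hc.eq 1) 1
  simp only [Matrix.mul_apply, Fin.sum_univ_two] at e00 e01 e10 e11
  by_cases hb : g 0 1 = 0
  · by_cases hcc : g 1 0 = 0
    · -- `g` is diagonal with distinct entries
      have hd : g 0 0 ≠ g 1 1 := by
        intro hd
        apply hg (g 0 0)
        ext i j
        fin_cases i <;> fin_cases j <;> simp [hb, hcc, hd]
      have hd' : g 0 0 - g 1 1 ≠ 0 := sub_ne_zero.mpr hd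
      have hd'' : g 1 1 - g 0 0 ≠ 0 := sub_ne_zero.mpr (Ne.symm hd)
      rw [hb] at e01
      rw [hcc] at e10
      have h01 : h 0 1 = 0 := by
        have : h 0 1 * (g 1 1 - g 0 0) = 0 := by linear_combination e01
        exact (mul_eq_zero.mp this).resolve_right hd''
      have h10 : h 1 0 = 0 := by
        have : h 1 0 * (g 0 0 - g 1 1) = 0 := by linear_combination e10
        exact (mul_eq_zero.mp this).resolve_right hd'
      refine ⟨h 0 0 - (h 0 0 - h 1 1) / (g 0 0 - g 1 1) * g 0 0,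
        (h 0 0 - h 1 1) / (g 0 0 - g 1 1), ?_⟩
      ext i j
      fin_cases i <;> fin_cases j <;> simp [hb, hcc, h01, h10]
      field_simp
      ring
    · -- `g 1 0 ≠ 0`
      refine ⟨h 0 0 - h 1 0 / g 1 0 * g 0 0, h 1 0 / g 1 0, ?_⟩
      ext i j
      fin_cases i <;> fin_cases j <;> simp
      · field_simp
        linear_combination e00
      · field_simp
      · field_simp
        linear_combination e10
  · -- `g 0 1 ≠ 0`
    refine ⟨h 0 0 - h 0 1 / g 0 1 * g 0 0, h 0 1 / g 0 1, ?_⟩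
    ext i j
    fin_cases i <;> fin_cases j <;> simp
    · field_simp
    · field_simp
      linear_combination -e00
    · field_simp
      linear_combination -e01

/-- A quadratic `A s² + B s` vanishing at two distinct non-zero points is zero. -/
theorem quad_zero_of_two_roots (A B s₁ s₂ : F) (h₁ : s₁ ≠ 0) (h₂ : s₂ ≠ 0) (h₁₂ : s₁ ≠ s₂)
    (e₁ : A * s₁ ^ 2 + B * s₁ = 0) (e₂ : A * s₂ ^ 2 + B * s₂ = 0) : A = 0 ∧ B = 0 := by
  have f₁ : A * s₁ + B = 0 := by
    have : s₁ * (A * s₁ + B) = 0 := by linear_combination e₁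
    exact (mul_eq_zero.mp this).resolve_left h₁
  have f₂ : A * s₂ + B = 0 := by
    have : s₂ * (A * s₂ + B) = 0 := by linear_combination e₂
    exact (mul_eq_zero.mp this).resolve_left h₂
  have hA : A = 0 := by
    have : A * (s₁ - s₂) = 0 := by linear_combination f₁ - f₂
    exact (mul_eq_zero.mp this).resolve_right (sub_ne_zero.mpr h₁₂)
  refine ⟨hA, ?_⟩
  rw [hA] at f₁
  simpa using f₁

/-- **Line ∩ conic.** Three points on a line `α τ₀ + β τ₁ = t₀` (not both `τᵢ` zero) and on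
the conic `α² + t α β + d β² = δ`, `δ ≠ 0`, `t² - 4 d ≠ 0`, are not pairwise distinct. -/
theorem line_conic (t d τ₀ τ₁ t₀ δ : F) (hdisc : t ^ 2 - 4 * d ≠ 0) (hτ : τ₀ ≠ 0 ∨ τ₁ ≠ 0)
    (hδ : δ ≠ 0) (α₀ β₀ α₁ β₁ α₂ β₂ : F)
    (l₀ : α₀ * τ₀ + β₀ * τ₁ = t₀) (l₁ : α₁ * τ₀ + β₁ * τ₁ = t₀) (l₂ : α₂ * τ₀ + β₂ * τ₁ = t₀)
    (c₀ : α₀ ^ 2 + α₀ * β₀ * t + β₀ ^ 2 * d = δ) (c₁ : α₁ ^ 2 + α₁ * β₁ * t + β₁ ^ 2 * d = δ)
    (c₂ : α₂ ^ 2 + α₂ * β₂ * t + β₂ ^ 2 * d = δ) :
    (α₀ = α₁ ∧ β₀ = β₁) ∨ (α₀ = α₂ ∧ β₀ = β₂) ∨ (α₁ = α₂ ∧ β₁ = β₂) := by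
  -- parametrise the line
  have hpar : ∀ α β : F, α * τ₀ + β * τ₁ = t₀ → ∃ s : F, α = α₀ + s * τ₁ ∧ β = β₀ - s * τ₀ := by
    intro α β hl
    rcases hτ with h0 | h1
    · refine ⟨-(β - β₀) / τ₀, ?_, ?_⟩
      · have : (α - α₀) * τ₀ = -(β - β₀) * τ₁ := by linear_combination hl - l₀
        field_simp
        linear_combination this
      · field_simp
        ring
    · refine ⟨(α - α₀) / τ₁, ?_, ?_⟩
      · field_simp
        ring
      · have : (β - β₀) * τ₁ = -(α - α₀) * τ₀ := by linear_combination hl - l₀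
        field_simp
        linear_combination this
  obtain ⟨s₁, hα₁, hβ₁⟩ := hpar α₁ β₁ l₁
  obtain ⟨s₂, hα₂, hβ₂⟩ := hpar α₂ β₂ l₂
  by_contra hcon
  push Not at hcon
  obtain ⟨h01, h02, h12⟩ := hcon
  have hs₁ : s₁ ≠ 0 := by
    intro h
    rw [h] at hα₁ hβ₁
    exact h01 (by rw [hα₁]; ring) (by rw [hβ₁]; ring)
  have hs₂ : s₂ ≠ 0 := by
    intro h
    rw [h] at hα₂ hβ₂
    exact h02 (by rw [hα₂]; ring) (by rw [hβ₂]; ring)
  have hs₁₂ : s₁ ≠ s₂ := by
    intro h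
    rw [h] at hα₁ hβ₁
    exact h12 (by rw [hα₁, hα₂]) (by rw [hβ₁, hβ₂])
  set Qv := τ₁ ^ 2 - t * τ₀ * τ₁ + d * τ₀ ^ 2 with hQv
  set Bv := 2 * α₀ * τ₁ + t * (β₀ * τ₁ - α₀ * τ₀) - 2 * d * β₀ * τ₀ with hBv
  have e₁ : Qv * s₁ ^ 2 + Bv * s₁ = 0 := by
    rw [hα₁, hβ₁] at c₁
    linear_combination c₁ - c₀
  have e₂ : Qv * s₂ ^ 2 + Bv * s₂ = 0 := by
    rw [hα₂, hβ₂] at c₂
    linear_combination c₂ - c₀
  obtain ⟨hQ0, hB0⟩ := quad_zero_of_two_roots Qv Bv s₁ s₂ hs₁ hs₂ hs₁₂ e₁ e₂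
  have hid : Bv ^ 2 - 4 * δ * Qv = (t ^ 2 - 4 * d) * t₀ ^ 2 := by
    rw [← c₀, ← l₀, hQv, hBv]
    ring
  rw [hQ0, hB0] at hid
  have ht₀ : t₀ = 0 := by
    have : (t ^ 2 - 4 * d) * t₀ ^ 2 = 0 := by linear_combination -hid
    rcases mul_eq_zero.mp this with h | h
    · exact absurd h hdisc
    · exact pow_eq_zero_iff (two_ne_zero) |>.mp h
  rw [ht₀] at l₀
  rcases hτ with h0 | h1
  · have : τ₀ ^ 2 * δ = β₀ ^ 2 * Qv := by
      have hα : α₀ * τ₀ = -(β₀ * τ₁) := by linear_combination l₀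
      rw [← c₀, hQv]
      linear_combination (α₀ * τ₀ - β₀ * τ₁ + t * β₀ * τ₀) * hα
    rw [hQ0, mul_zero] at this
    rcases mul_eq_zero.mp this with h | h
    · exact h0 (pow_eq_zero_iff (two_ne_zero) |>.mp h)
    · exact hδ h
  · have : τ₁ ^ 2 * δ = α₀ ^ 2 * Qv := by
      have hβ : β₀ * τ₁ = -(α₀ * τ₀) := by linear_combination l₀
      rw [← c₀, hQv]
      linear_combination (t * α₀ * τ₁ + d * β₀ * τ₁ - d * α₀ * τ₀) * hβ
    rw [hQ0, mul_zero] at this
    rcases mul_eq_zero.mp this with h | h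
    · exact h1 (pow_eq_zero_iff (two_ne_zero) |>.mp h)
    · exact hδ h

/-- If `tr x = 0` and `tr (x g) = 0` then `x g = (tr g - g) x`. -/
theorem mul_eq_conj_mul_of_bad (x g : Matrix (Fin 2) (Fin 2) F) (h0 : x.trace = 0)
    (h1 : (x * g).trace = 0) :
    x * g = (g.trace • (1 : Matrix (Fin 2) (Fin 2) F) - g) * x := by
  have h := polarized_cayley_hamilton x g
  rw [h0, h1] at h
  simp only [zero_smul, zero_mul, sub_zero, zero_add, add_zero] at h
  rw [sub_mul, smul_mul_assoc, one_mul]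
  rw [← h]
  abel

end Fermat.Agent.S48.FI
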