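import Fermat.Agent.S48.FI.Spec
import Fermat.Agent.S48.FI.Coset

/-!
# S48 / FI (helper768): set-up

* `exists_finset_of_condC`: unpack `CondC` as a finset of the subgroup type.
* `card_le_coset_add_bad`: the coset trick with a set of bad elements.
* `card_GL2_le`: `|GL₂(𝔽_ℓ)| ≤ ℓ⁴`.
-/

set_option autoImplicit false

namespace Fermat.Agent.S48.FI

open Matrix

theorem exists_finset_of_condC {F : Type*} [Field F] {G : Subgroup (GL (Fin 2) F)} [Finite G]
    {η : ℝ} {M : ℕ} (h : CondC η M G) :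
    ∃ (T : Finset G) (P : Finset (F × F)), (1 - η) * (Nat.card G : ℝ) ≤ (T.card : ℝ) ∧
      P.card ≤ M ∧ ∀ γ ∈ T, trDet (γ : GL (Fin 2) F) ∈ P := by
  classical
  obtain ⟨H, hHG, hcard, P, hP, hHP⟩ := h
  haveI : Fintype G := Fintype.ofFinite G
  refine ⟨Finset.univ.filter (fun γ : G => (γ : GL (Fin 2) F) ∈ H), P, ?_, hP, ?_⟩
  · have e : {γ : G // (γ : GL (Fin 2) F) ∈ H} ≃ H :=
      { toFun := fun γ => ⟨γ.1.1, γ.2⟩
        invFun := fun x => ⟨⟨x.1, hHG x.2⟩, x.2⟩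
        left_inv := fun γ => rfl
        right_inv := fun x => rfl }
    have h1 : (Finset.univ.filter (fun γ : G => (γ : GL (Fin 2) F) ∈ H)).card = Nat.card H := by
      rw [← Nat.card_congr e, Nat.card_eq_fintype_card, Fintype.card_subtype]
    rw [h1]
    exact hcard
  · intro γ hγ
    rw [Finset.mem_filter] at hγ
    exact hHP _ hγ.2

theorem card_le_coset_add_bad {Γ : Type*} [Group Γ] [Finite Γ] (K : Subgroup Γ) (T : Finset Γ)
    (bad : Γ → Prop) (c b : ℕ)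
    (hgood : ∀ x ∈ T, ¬ bad x → ∀ S : Finset Γ, S ⊆ T → (∀ y ∈ S, x⁻¹ * y ∈ K) → S.card ≤ c)
    (hbad : ∀ S : Finset Γ, (∀ y ∈ S, bad y) → S.card ≤ b) :
    T.card ≤ c * K.index + b := by
  classical
  have h1 : (T.filter (fun x => ¬ bad x)).card ≤ c * K.index := by
    refine card_le_mul_index_of_coset_bound K _ c ?_
    intro x hx S hS hSK
    rw [Finset.mem_filter] at hx
    exact hgood x hx.1 hx.2 S (hS.trans (Finset.filter_subset _ _)) hSK
  have h2 : (T.filter (fun x => bad x)).card ≤ b := by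
    refine hbad _ ?_
    intro y hy
    rw [Finset.mem_filter] at hy
    exact hy.2
  have h3 := Finset.card_filter_add_card_filter_not (s := T) (fun x => bad x)
  omega

theorem card_GL2_le (ℓ : ℕ) [Fact ℓ.Prime] : Nat.card (GL (Fin 2) (ZMod ℓ)) ≤ ℓ ^ 4 := by
  classical
  have h1 : Nat.card (GL (Fin 2) (ZMod ℓ)) ≤ Nat.card (Matrix (Fin 2) (Fin 2) (ZMod ℓ)) :=
    Nat.card_le_card_of_injective (fun g => (g : Matrix (Fin 2) (Fin 2) (ZMod ℓ)))
      (fun a b h => Units.ext h)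
  have h2 : Nat.card (Matrix (Fin 2) (Fin 2) (ZMod ℓ)) = ℓ ^ 4 := by
    rw [Nat.card_eq_fintype_card]
    change Fintype.card (Fin 2 → Fin 2 → ZMod ℓ) = ℓ ^ 4
    simp [ZMod.card]
    ring
  omega

theorem card_subgroup_GL2_le (ℓ : ℕ) [Fact ℓ.Prime] (G : Subgroup (GL (Fin 2) (ZMod ℓ))) :
    Nat.card G ≤ ℓ ^ 4 :=
  le_trans (Nat.card_le_card_of_injective (fun g : G => (g : GL (Fin 2) (ZMod ℓ)))
    Subtype.val_injective) (card_GL2_le ℓ)

end Fermat.Agent.S48.FI
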