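import Mathlib

/-!
# S48 (Deligne–Serre) — piece FI: the finite image lemma  [Deligne–Serre 1974, Prop. 7.2]

**Statement.**  For `η < 1/2` and `M` there is a bound `A = A(η, M)` such that for every prime
`ℓ` and every subgroup `G ≤ GL₂(𝔽_ℓ)` which is semisimple (it suffices: *if `ℓ ∣ |G|` then `G`
stabilises no line*) and satisfies

  `C(η, M)`: there is `H ⊆ G` with `|H| ≥ (1 - η) |G|` such that the characteristic polynomials
  (equivalently the pairs `(trace, det)`) of the elements of `H` take at most `M` values,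

one has `|G| ≤ A`.

This file is the frozen interface: definitions and the final statements.  The proofs are in
`Main.lean` (`finiteImage`, `finiteImage_semisimple`), all Mathlib-only and elementary:

* `ℓ ∣ |G|` (`CaseDiv.lean`): `G` contains `u = 1 + N` of order `ℓ`, `N² = 0`.  On a coset
  `x ⟨u⟩` with `tr (x N) ≠ 0` the trace is injective; the `x` with `tr (x N) = 0` stabilise the
  line `ker N`, and left multiplication by an element moving that line maps them to good
  elements, so they are at most half of `G`.  Hence `(1 - 2η) ℓ ≤ 2 M`, and `|G| ≤ ℓ⁴`.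
* `ℓ ∤ |G|`, `ℓ` odd (`CaseCoprime.lean`): a non-scalar `g ∈ G` has non-zero discriminant, its
  commutant is `F + F g`, and on a left coset `x C_G(g)` with `(tr x, tr (x g)) ≠ (0, 0)` the map
  `(trace, det)` is at most `2`-to-`1` (line ∩ conic); the remaining `x` lie in one coset.
  So `[G : C_G(g)] ≤ 2` and `|G| ≤ 8M/(1-2η) + 4M`, or `|C_G(g)| ≤ 12 M` for every non-scalar
  `g`, and then `|G| ≤ (12 M)^(12 M + 1)` by a Landau-type bound from the class equation
  (`Landau.lean`).
-/

set_option autoImplicit false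

namespace Fermat.Agent.S48.FI

open Matrix

universe u

section Defs

variable {F : Type*} [Field F]

/-- `(trace, det)` of an invertible `2 × 2` matrix; it determines the characteristic
polynomial `X² - trace • X + det`. -/
def trDet (g : GL (Fin 2) F) : F × F :=
  ((g : Matrix (Fin 2) (Fin 2) F).trace, (g : Matrix (Fin 2) (Fin 2) F).det)

/-- `G` stabilises no line of `F²`. -/
def NoStableLine (G : Subgroup (GL (Fin 2) F)) : Prop :=
  ∀ v : Fin 2 → F, v ≠ 0 → ∃ g ∈ G, ∀ c : F, (g : Matrix (Fin 2) (Fin 2) F) *ᵥ v ≠ c • v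

/-- Semisimplicity of the tautological representation of `G` on `F²`: every `G`-stable line
has a `G`-stable complement. -/
def StableLinesSplit (G : Subgroup (GL (Fin 2) F)) : Prop :=
  ∀ v : Fin 2 → F, v ≠ 0 →
    (∀ g ∈ G, ∃ c : F, (g : Matrix (Fin 2) (Fin 2) F) *ᵥ v = c • v) →
    ∃ w : Fin 2 → F, (∀ c : F, w ≠ c • v) ∧
      ∀ g ∈ G, ∃ c : F, (g : Matrix (Fin 2) (Fin 2) F) *ᵥ w = c • w

/-- The condition `C(η, M)` of Deligne–Serre: a subset `H` of proportion at least `1 - η` on
which `(trace, det)` takes at most `M` values. -/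
def CondC (η : ℝ) (M : ℕ) (G : Subgroup (GL (Fin 2) F)) : Prop :=
  ∃ H : Set (GL (Fin 2) F), H ⊆ (G : Set (GL (Fin 2) F)) ∧
    (1 - η) * (Nat.card G : ℝ) ≤ (Nat.card H : ℝ) ∧
    ∃ P : Finset (F × F), P.card ≤ M ∧ ∀ h ∈ H, trDet h ∈ P

end Defs

/-- **The finite image lemma** (final statement of piece FI). -/
def FiniteImageStatement : Prop :=
  ∀ (η : ℝ) (M : ℕ), η < 1 / 2 → ∃ A : ℕ, ∀ (ℓ : ℕ) [Fact ℓ.Prime]
    (G : Subgroup (GL (Fin 2) (ZMod ℓ))),
    (ℓ ∣ Nat.card G → NoStableLine G) → CondC η M G → Nat.card G ≤ A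

/-- The finite image lemma for semisimple subgroups (the form used by Deligne–Serre). -/
def FiniteImageSemisimpleStatement : Prop :=
  ∀ (η : ℝ) (M : ℕ), η < 1 / 2 → ∃ A : ℕ, ∀ (ℓ : ℕ) [Fact ℓ.Prime]
    (G : Subgroup (GL (Fin 2) (ZMod ℓ))),
    StableLinesSplit G → CondC η M G → Nat.card G ≤ A

end Fermat.Agent.S48.FI
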