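import Fermat.Agent.S48.FI.Main
import Fermat.Agent.S48.Top.Spec

/-!
# S48 / FI (helper768): the row input P5, `Top.FiniteImageStatement`

`finiteImage_top : Fermat.Agent.S48.Top.FiniteImageStatement` — the finite image lemma of
Deligne–Serre (Prop. 7.2) in the general-field form of the row's frozen interface.
-/

set_option autoImplicit false

namespace Fermat.Agent.S48.FI

open Matrix

theorem stableLinesSplit_of_top {F : Type*} [Field F] {G : Subgroup (GL (Fin 2) F)}
    (h : Fermat.Agent.S48.Top.StableLinesSplit G) : StableLinesSplit G := h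

theorem condC_of_top {F : Type*} [Field F] {G : Subgroup (GL (Fin 2) F)} {η : ℝ} {M : ℕ}
    (h : Fermat.Agent.S48.Top.CondC η M G) : CondC η M G := h

/-- **P5 (FI)** of row S48. -/
theorem finiteImage_top : Fermat.Agent.S48.Top.FiniteImageStatement := by
  intro η M hη
  obtain ⟨A, hA⟩ := finiteImage_general η M hη
  exact ⟨A, fun ℓ hℓ hAℓ k _ _ G hfin hss hC =>
    hA ℓ hℓ hAℓ k G hfin (stableLinesSplit_of_top hss) (condC_of_top hC)⟩

end Fermat.Agent.S48.FI
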